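import Mathlib

/-!
# A binomial power sum over a finite field

For a finite field `F` with `q` elements and `m < q - 1` we evaluate
`∑ x : F, x ^ m * (1 - x) ^ m`:
it vanishes when `2 * m < q - 1`, and it is nonzero when `q - 1 ≤ 2 * m` and `q` is prime.
(This is the congruence behind the prime factorisation of Jacobi sums.)
-/

set_option autoImplicit false

namespace Fermat.Agent.Lib.StickOmega

open Finset

variable {F : Type*} [Field F] [Fintype F]

/-- Power sums over a finite field, positive exponent. -/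
theorem sum_pow_eq_ite (i : ℕ) (hi : 0 < i) :
    ∑ x : F, x ^ i = if Fintype.card F - 1 ∣ i then (-1 : F) else 0 := by
  classical
  have h1 := FiniteField.sum_pow_units F i
  rw [← h1]
  let φ : Fˣ ↪ F := ⟨fun x ↦ x, Units.val_injective⟩
  have hmap : univ.map φ = univ \ {(0 : F)} := by
    ext x
    simp only [mem_map, mem_univ, true_and, mem_sdiff, mem_singleton]
    constructor
    · rintro ⟨u, rfl⟩
      exact u.ne_zero
    · intro hx
      exact ⟨Units.mk0 x hx, rfl⟩
  have h2 : ∑ x : Fˣ, ((x : F) ^ i) = ∑ x ∈ univ \ {(0 : F)}, x ^ i := by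
    rw [← hmap, sum_map]
    rfl
  rw [h2]
  rw [sum_sdiff_eq_sub (subset_univ _), sum_singleton, zero_pow hi.ne', sub_zero]

/-- The expansion of the binomial power sum. -/
theorem sum_pow_mul_one_sub_pow_expand (m : ℕ) :
    ∑ x : F, x ^ m * (1 - x) ^ m =
      ∑ k ∈ range (m + 1), ((m.choose k : F) * (-1) ^ k) * ∑ x : F, x ^ (m + k) := by
  have h : ∀ x : F, x ^ m * (1 - x) ^ m =
      ∑ k ∈ range (m + 1), ((m.choose k : F) * (-1) ^ k) * x ^ (m + k) := by
    intro x
    have hx : (1 - x) ^ m = ∑ k ∈ range (m + 1), (m.choose k : F) * (-1) ^ k * x ^ k := by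
      have := add_pow (-x) 1 m
      rw [show (-x + 1) = 1 - x by ring] at this
      rw [this]
      refine sum_congr rfl fun k _ => ?_
      rw [one_pow, mul_one, neg_pow]
      ring
    rw [hx, mul_sum]
    refine sum_congr rfl fun k _ => ?_
    rw [pow_add]
    ring
  simp_rw [h]
  rw [sum_comm]
  refine sum_congr rfl fun k _ => ?_
  rw [mul_sum]

/-- If `2 * m < q - 1` the binomial power sum vanishes. -/
theorem sum_pow_mul_one_sub_pow_eq_zero (m : ℕ) (h : 2 * m < Fintype.card F - 1) :
    ∑ x : F, x ^ m * (1 - x) ^ m = 0 := by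
  rw [sum_pow_mul_one_sub_pow_expand]
  refine sum_eq_zero fun k hk => ?_
  rw [mem_range] at hk
  rw [FiniteField.sum_pow_lt_card_sub_one F (m + k) (by omega), mul_zero]

/-- If `q - 1 ≤ 2 * m`, `m < q - 1` and `q` is prime, the binomial power sum is nonzero. -/
theorem sum_pow_mul_one_sub_pow_ne_zero (hF : (Fintype.card F).Prime) (m : ℕ)
    (h1 : Fintype.card F - 1 ≤ 2 * m) (h2 : m < Fintype.card F - 1) :
    ∑ x : F, x ^ m * (1 - x) ^ m ≠ 0 := by
  classical
  set q := Fintype.card F with hq
  have hq2 : 2 ≤ q := hF.two_le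
  rw [sum_pow_mul_one_sub_pow_expand]
  have hm : 0 < m := by omega
  set k₀ := q - 1 - m with hk₀
  have hk₀m : k₀ ≤ m := by omega
  have hsum : ∑ k ∈ range (m + 1), ((m.choose k : F) * (-1) ^ k) * ∑ x : F, x ^ (m + k) =
      ((m.choose k₀ : F) * (-1) ^ k₀) * (-1) := by
    rw [sum_eq_single k₀]
    · rw [sum_pow_eq_ite (m + k₀) (by omega)]
      rw [if_pos]
      rw [← hq]
      have : m + k₀ = q - 1 := by omega
      rw [this]
    · intro k hk hkne
      rw [mem_range] at hk
      rw [sum_pow_eq_ite (m + k) (by omega), if_neg, mul_zero]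
      rw [← hq]
      intro hdvd
      obtain ⟨c, hc⟩ := hdvd
      have hc1 : c = 1 := by
        rcases Nat.lt_or_ge c 2 with hc2 | hc2
        · rcases Nat.lt_or_ge c 1 with hc0 | hc0
          · have : c = 0 := by omega
            subst this
            omega
          · omega
        · have : (q - 1) * 2 ≤ (q - 1) * c := Nat.mul_le_mul_left _ hc2
          omega
      subst hc1
      apply hkne
      omega
    · intro hk
      exact absurd (mem_range.mpr (by omega)) hk
  rw [hsum]
  have hchar : CharP F q := by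
    obtain ⟨p', hp'⟩ := CharP.exists F
    have hp'prime : Fact p'.Prime := ⟨CharP.char_is_prime F p'⟩
    obtain ⟨n, hn, hcard⟩ := FiniteField.card F p'
    have : q = p' := by
      have h3 : q = p' ^ (n : ℕ) := hcard
      have h4 : p' ∣ q := by
        rw [h3]
        exact dvd_pow_self _ n.ne_zero
      exact ((Nat.prime_dvd_prime_iff_eq hn hF).mp h4).symm
    rw [this]
    exact hp'
  have hchoose : (m.choose k₀ : F) ≠ 0 := by
    intro h0
    rw [CharP.cast_eq_zero_iff F q] at h0
    have hdvd : m.choose k₀ ∣ m.factorial := by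
      have := Nat.choose_mul_factorial_mul_factorial hk₀m
      exact Dvd.intro (k₀.factorial * (m - k₀).factorial) (by rw [← this]; ring)
    have : q ∣ m.factorial := h0.trans hdvd
    rw [hF.dvd_factorial] at this
    omega
  have hpow : ((-1 : F)) ^ k₀ ≠ 0 := pow_ne_zero _ (neg_ne_zero.mpr one_ne_zero)
  exact mul_ne_zero (mul_ne_zero hchoose hpow) (neg_ne_zero.mpr one_ne_zero)

end Fermat.Agent.Lib.StickOmega
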