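import Mathlib
import Fermat.Agent.Lib.StickOmega.SumPow

/-!
# The power residue character and its Jacobi sum modulo the prime

Abstract setting: `φ : R →+* F` a ring homomorphism from a domain to a finite field with
`M * p + 1` elements, `ζ : R` a primitive `p`-th root of unity whose image is still primitive.
We construct the multiplicative character `χ = resChar : F → R` with values in `μ_p ∪ {0}`
characterised by `φ (χ x) = x ^ M`, and compute the image under `φ` of the Galois conjugates of
the Jacobi sum `J(χ, χ)`.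
-/

set_option autoImplicit false
set_option linter.unusedSectionVars false

namespace Fermat.Agent.Lib.StickOmega

open Finset

section Abstract

variable {R F : Type*} [CommRing R] [IsDomain R] [Field F] [Fintype F]
  (φ : R →+* F) {p : ℕ} [NeZero p] {ζ : R} (hζ : IsPrimitiveRoot ζ p)
  (hφζ : IsPrimitiveRoot (φ ζ) p) {M : ℕ} (hM : Fintype.card F = M * p + 1)

include hζ hφζ in
/-- `φ` is injective on `p`-th roots of unity. -/
theorem eq_of_pow_eq_one_of_map_eq {u v : R} (hu : u ^ p = 1) (hv : v ^ p = 1)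
    (h : φ u = φ v) : u = v := by
  obtain ⟨i, hi, rfl⟩ := hζ.eq_pow_of_pow_eq_one hu
  obtain ⟨j, hj, rfl⟩ := hζ.eq_pow_of_pow_eq_one hv
  rw [map_pow, map_pow] at h
  rw [hφζ.pow_inj hi hj h]

include hM in
theorem resChar_M_ne_zero : M ≠ 0 := by
  rintro rfl
  have := Fintype.one_lt_card (α := F)
  omega

include hζ hφζ hM in
/-- Every `M`-th power of a nonzero element lifts to a `p`-th root of unity. -/
theorem exists_root_lift (x : F) (hx : x ≠ 0) : ∃ u : R, u ^ p = 1 ∧ φ u = x ^ M := by
  have h1 : (x ^ M) ^ p = 1 := by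
    rw [← pow_mul]
    have := FiniteField.pow_card_sub_one_eq_one x hx
    rwa [hM, Nat.add_sub_cancel] at this
  obtain ⟨i, -, hi⟩ := hφζ.eq_pow_of_pow_eq_one h1
  refine ⟨ζ ^ i, ?_, ?_⟩
  · rw [← pow_mul, mul_comm, pow_mul, hζ.pow_eq_one, one_pow]
  · rw [map_pow, hi]

open Classical in
/-- The underlying function of the residue character. -/
noncomputable def resCharFun (x : F) : R :=
  if hx : x = 0 then 0 else Classical.choose (exists_root_lift φ hζ hφζ hM x hx)

theorem resCharFun_zero : resCharFun φ hζ hφζ hM 0 = 0 := by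
  simp [resCharFun]

theorem resCharFun_pow {x : F} (hx : x ≠ 0) : resCharFun φ hζ hφζ hM x ^ p = 1 := by
  simp only [resCharFun, dif_neg hx]
  exact (Classical.choose_spec (exists_root_lift φ hζ hφζ hM x hx)).1

theorem map_resCharFun (x : F) : φ (resCharFun φ hζ hφζ hM x) = x ^ M := by
  by_cases hx : x = 0
  · subst hx
    rw [resCharFun_zero, map_zero, zero_pow (resChar_M_ne_zero hM)]
  · simp only [resCharFun, dif_neg hx]
    exact (Classical.choose_spec (exists_root_lift φ hζ hφζ hM x hx)).2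

theorem resCharFun_one : resCharFun φ hζ hφζ hM 1 = 1 := by
  apply eq_of_pow_eq_one_of_map_eq φ hζ hφζ (resCharFun_pow φ hζ hφζ hM one_ne_zero) (one_pow p)
  rw [map_resCharFun, one_pow, map_one]

theorem resCharFun_mul (x y : F) :
    resCharFun φ hζ hφζ hM (x * y) = resCharFun φ hζ hφζ hM x * resCharFun φ hζ hφζ hM y := by
  by_cases hx : x = 0
  · subst hx
    rw [zero_mul, resCharFun_zero, zero_mul]
  by_cases hy : y = 0
  · subst hy
    rw [mul_zero, resCharFun_zero, mul_zero]
  apply eq_of_pow_eq_one_of_map_eq φ hζ hφζ (resCharFun_pow φ hζ hφζ hM (mul_ne_zero hx hy))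
  · rw [mul_pow, resCharFun_pow φ hζ hφζ hM hx, resCharFun_pow φ hζ hφζ hM hy, one_mul]
  · rw [map_mul, map_resCharFun, map_resCharFun, map_resCharFun, mul_pow]

/-- The power residue character `F → R`. -/
noncomputable def resChar : MulChar F R :=
  MulChar.mk
    { toFun := resCharFun φ hζ hφζ hM
      map_one' := resCharFun_one φ hζ hφζ hM
      map_mul' := resCharFun_mul φ hζ hφζ hM }
    (fun a ha => by
      have : a = 0 := by
        by_contra h
        exact ha (IsUnit.mk0 a h)
      subst this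
      exact resCharFun_zero φ hζ hφζ hM)

theorem resChar_apply (x : F) : resChar φ hζ hφζ hM x = resCharFun φ hζ hφζ hM x := rfl

theorem map_resChar (x : F) : φ (resChar φ hζ hφζ hM x) = x ^ M :=
  map_resCharFun φ hζ hφζ hM x

theorem resChar_pow {x : F} (hx : x ≠ 0) : resChar φ hζ hφζ hM x ^ p = 1 :=
  resCharFun_pow φ hζ hφζ hM hx

theorem resChar_zero : resChar φ hζ hφζ hM 0 = 0 :=
  resCharFun_zero φ hζ hφζ hM

/-- An endomorphism acting on `p`-th roots of unity as the `n`-th power acts on the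
values of the residue character as the `n`-th power. -/
theorem map_resChar_of_pow {s : R →+* R} {n : ℕ} (hn : n ≠ 0)
    (hs : ∀ y : R, y ^ p = 1 → s y = y ^ n) (x : F) :
    s (resChar φ hζ hφζ hM x) = resChar φ hζ hφζ hM x ^ n := by
  by_cases hx : x = 0
  · subst hx
    rw [resChar_zero, map_zero, zero_pow hn]
  · exact hs _ (resChar_pow φ hζ hφζ hM hx)

/-- The image modulo the prime of a Galois conjugate of the Jacobi sum. -/
theorem map_map_jacobiSum {s : R →+* R} {n : ℕ} (hn : n ≠ 0)
    (hs : ∀ y : R, y ^ p = 1 → s y = y ^ n) :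
    φ (s (jacobiSum (resChar φ hζ hφζ hM) (resChar φ hζ hφζ hM))) =
      ∑ x : F, x ^ (M * n) * (1 - x) ^ (M * n) := by
  rw [jacobiSum, map_sum, map_sum]
  refine sum_congr rfl fun x _ => ?_
  rw [map_mul, map_mul, map_resChar_of_pow φ hζ hφζ hM hn hs, map_resChar_of_pow φ hζ hφζ hM hn hs,
    map_pow, map_pow, map_resChar, map_resChar, pow_mul, pow_mul]

/-- Conjugates with small exponent are divisible by the prime. -/
theorem map_map_jacobiSum_eq_zero {s : R →+* R} {n : ℕ} (hn : n ≠ 0)
    (hs : ∀ y : R, y ^ p = 1 → s y = y ^ n) (h2 : 2 * n < p) :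
    φ (s (jacobiSum (resChar φ hζ hφζ hM) (resChar φ hζ hφζ hM))) = 0 := by
  rw [map_map_jacobiSum φ hζ hφζ hM hn hs]
  apply sum_pow_mul_one_sub_pow_eq_zero
  rw [hM, Nat.add_sub_cancel]
  have hM0 := resChar_M_ne_zero hM
  calc 2 * (M * n) = M * (2 * n) := by ring
    _ < M * p := Nat.mul_lt_mul_of_pos_left h2 (Nat.pos_of_ne_zero hM0)

/-- Conjugates with large exponent are not divisible by the prime (degree one case). -/
theorem map_map_jacobiSum_ne_zero (hF : (Fintype.card F).Prime) {s : R →+* R} {n : ℕ}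
    (hs : ∀ y : R, y ^ p = 1 → s y = y ^ n) (h2 : p ≤ 2 * n) (h3 : n < p) :
    φ (s (jacobiSum (resChar φ hζ hφζ hM) (resChar φ hζ hφζ hM))) ≠ 0 := by
  have hp0 : 0 < p := Nat.pos_of_ne_zero (NeZero.ne p)
  have hn : n ≠ 0 := by omega
  rw [map_map_jacobiSum φ hζ hφζ hM hn hs]
  have hM0 := resChar_M_ne_zero hM
  apply sum_pow_mul_one_sub_pow_ne_zero hF
  · rw [hM, Nat.add_sub_cancel]
    calc M * p ≤ M * (2 * n) := Nat.mul_le_mul_left _ h2
      _ = 2 * (M * n) := by ring
  · rw [hM, Nat.add_sub_cancel]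
    exact Nat.mul_lt_mul_of_pos_left h3 (Nat.pos_of_ne_zero hM0)

include hM in
/-- There is an element of `F` whose order is exactly `M * p`. -/
theorem exists_pow_ne_one {k : ℕ} (hk0 : 0 < k) (hk : k < M * p) :
    ∃ x : F, x ≠ 0 ∧ x ^ k ≠ 1 := by
  classical
  obtain ⟨g, hg⟩ := IsCyclic.exists_generator (α := Fˣ)
  have hord : orderOf g = M * p := by
    rw [orderOf_eq_card_of_forall_mem_zpowers hg, Nat.card_eq_fintype_card, Fintype.card_units, hM,
      Nat.add_sub_cancel]
  refine ⟨(g : F), g.ne_zero, fun h => ?_⟩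
  have h' : g ^ k = 1 := by
    apply Units.ext
    rw [Units.val_pow_eq_pow_val, h, Units.val_one]
  have := orderOf_dvd_of_pow_eq_one h'
  rw [hord] at this
  exact absurd (Nat.le_of_dvd hk0 this) (by omega)

/-- The residue character is nontrivial. -/
theorem resChar_ne_one (hp : 1 < p) : resChar φ hζ hφζ hM ≠ 1 := by
  intro h
  have hM0 := resChar_M_ne_zero hM
  have hMpos : 0 < M := Nat.pos_of_ne_zero hM0
  have hlt : M < M * p := by
    calc M = M * 1 := (mul_one M).symm
      _ < M * p := Nat.mul_lt_mul_of_pos_left hp hMpos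
  obtain ⟨x, hx0, hx⟩ := exists_pow_ne_one (F := F) (p := p) hM (k := M) hMpos hlt
  apply hx
  rw [← map_resChar φ hζ hφζ hM x, h, MulChar.one_apply (IsUnit.mk0 x hx0), map_one]

/-- The square of the residue character is nontrivial. -/
theorem resChar_mul_self_ne_one (hp : 2 < p) :
    resChar φ hζ hφζ hM * resChar φ hζ hφζ hM ≠ 1 := by
  intro h
  have hM0 := resChar_M_ne_zero hM
  have hMpos : 0 < M := Nat.pos_of_ne_zero hM0
  have hlt : 2 * M < M * p := by
    calc 2 * M = M * 2 := mul_comm 2 M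
      _ < M * p := Nat.mul_lt_mul_of_pos_left hp hMpos
  obtain ⟨x, hx0, hx⟩ := exists_pow_ne_one (F := F) (p := p) hM (k := 2 * M)
    (by omega) hlt
  apply hx
  have h1 : (resChar φ hζ hφζ hM * resChar φ hζ hφζ hM) x = 1 := by
    rw [h, MulChar.one_apply (IsUnit.mk0 x hx0)]
  rw [MulChar.mul_apply] at h1
  have h2 := congrArg φ h1
  rw [map_mul, map_resChar, map_one] at h2
  rw [two_mul, pow_add]
  exact h2

/-- The inverse character is the `(p - 1)`-th power. -/
theorem resChar_inv_apply (hp : 1 < p) (x : F) :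
    (resChar φ hζ hφζ hM)⁻¹ x = resChar φ hζ hφζ hM x ^ (p - 1) := by
  have hp0 : 0 < p := by omega
  by_cases hx : x = 0
  · subst hx
    rw [MulChar.map_zero, resChar_zero, zero_pow (by omega)]
  · have h1 : (resChar φ hζ hφζ hM)⁻¹ x * resChar φ hζ hφζ hM x = 1 := by
      rw [← MulChar.mul_apply, MulChar.inv_mul, MulChar.one_apply (IsUnit.mk0 x hx)]
    have h2 : resChar φ hζ hφζ hM x ^ (p - 1) * resChar φ hζ hφζ hM x = 1 := by
      rw [← pow_succ, Nat.sub_add_cancel hp0, resChar_pow φ hζ hφζ hM hx]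
    have hne : resChar φ hζ hφζ hM x ≠ 0 := by
      intro h0
      rw [h0, mul_zero] at h1
      exact zero_ne_one h1
    exact mul_right_cancel₀ hne (h1.trans h2.symm)

/-- The Jacobi sum of the inverse character is the conjugate of the Jacobi sum under an
endomorphism acting as the `(p - 1)`-th power on `p`-th roots of unity. -/
theorem jacobiSum_inv_eq_map (hp : 1 < p) {s : R →+* R}
    (hs : ∀ y : R, y ^ p = 1 → s y = y ^ (p - 1)) :
    jacobiSum (resChar φ hζ hφζ hM)⁻¹ (resChar φ hζ hφζ hM)⁻¹ =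
      s (jacobiSum (resChar φ hζ hφζ hM) (resChar φ hζ hφζ hM)) := by
  rw [jacobiSum, jacobiSum, map_sum]
  refine sum_congr rfl fun x _ => ?_
  rw [map_mul, map_resChar_of_pow φ hζ hφζ hM (by omega) hs,
    map_resChar_of_pow φ hζ hφζ hM (by omega) hs, resChar_inv_apply φ hζ hφζ hM hp,
    resChar_inv_apply φ hζ hφζ hM hp]

/-- The product of the Jacobi sum and its conjugate is the cardinality of the field. -/
theorem jacobiSum_mul_jacobiSum_inv_eq {K' : Type*} [Field K'] (ι : R →+* K')
    (hι : Function.Injective ι) (hchar : ringChar K' ≠ ringChar F) (hp : 2 < p) :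
    jacobiSum (resChar φ hζ hφζ hM) (resChar φ hζ hφζ hM) *
      jacobiSum (resChar φ hζ hφζ hM)⁻¹ (resChar φ hζ hφζ hM)⁻¹ = (Fintype.card F : R) := by
  apply hι
  rw [map_mul, ← jacobiSum_ringHomComp, ← jacobiSum_ringHomComp, ← MulChar.ringHomComp_inv,
    map_natCast]
  have h1 : (resChar φ hζ hφζ hM).ringHomComp ι ≠ 1 :=
    (MulChar.ringHomComp_ne_one_iff hι).mpr (resChar_ne_one φ hζ hφζ hM (by omega))
  have h2 : (resChar φ hζ hφζ hM).ringHomComp ι * (resChar φ hζ hφζ hM).ringHomComp ι ≠ 1 := by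
    rw [← MulChar.ringHomComp_mul]
    exact (MulChar.ringHomComp_ne_one_iff hι).mpr (resChar_mul_self_ne_one φ hζ hφζ hM hp)
  exact jacobiSum_mul_jacobiSum_inv hchar h1 h1 h2

end Abstract

end Fermat.Agent.Lib.StickOmega
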