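import Mathlib
import Fermat.Prelude.Def_Stickelberger_Basic
import Fermat.Prelude.Def_ClassGroup_GaloisAction
import Fermat.Agent.Lib.StickOmega.ResChar

/-!
# Stickelberger at degree-one primes of `ℚ(ζ_p)` via Jacobi sums

For a prime `Q` of the `p`-th cyclotomic field above a rational prime `q ≡ 1 mod p`, the ideal
`∏_{0 < c < p/2} σ_c⁻¹(Q)` is principal, generated by the Jacobi sum of the `p`-th power residue
character modulo `Q` (`exists_span_eq_prod`).  Everything is stated with the Prelude's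
`JacobiSumStickelberger.clRingAction` and `Stickelberger.exponentSet` / `expUnit`.
-/

set_option autoImplicit false
set_option linter.unusedSectionVars false
set_option linter.style.haveILetI false

open scoped NumberField nonZeroDivisors

namespace Fermat.Agent.Lib.StickOmega

open JacobiSumStickelberger Stickelberger

variable (p : ℕ) [Fact p.Prime] (K : Type*) [Field K] [NumberField K]
  [IsCyclotomicExtension {p} ℚ K]

theorem coe_clRingAction (t : (ZMod p)ˣ) (x : 𝓞 K) :
    ((clRingAction p K t x : 𝓞 K) : K) = (cycloGalEquiv p K).symm t (x : K) := by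
  exact algebraMap_galRestrict_apply ℤ ((cycloGalEquiv p K).symm t) x

theorem clRingAction_of_pow_eq_one (t : (ZMod p)ˣ) (y : 𝓞 K) (hy : y ^ p = 1) :
    clRingAction p K t y = y ^ (t : ZMod p).val := by
  apply FaithfulSMul.algebraMap_injective (𝓞 K) K
  have h1 : (algebraMap (𝓞 K) K y) ^ p = 1 := by
    rw [← map_pow, hy, map_one]
  have h2 := IsCyclotomicExtension.Rat.galEquivZMod_apply_of_pow_eq p K
    ((cycloGalEquiv p K).symm t) h1
  have h3 : IsCyclotomicExtension.Rat.galEquivZMod p K ((cycloGalEquiv p K).symm t) = t :=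
    (cycloGalEquiv p K).apply_symm_apply t
  rw [h3] at h2
  rw [map_pow]
  exact (coe_clRingAction p K t y).trans h2

theorem zmod_val_neg_one (n : ℕ) (hn : 0 < n) : (-1 : ZMod n).val = n - 1 := by
  obtain ⟨m, rfl⟩ := Nat.exists_eq_succ_of_ne_zero hn.ne'
  exact ZMod.val_neg_one m

variable {p K}

/-- A prime ideal containing the rational prime `q` lies over `q`. -/
theorem liesOver_of_natCast_mem (Q : Ideal (𝓞 K)) [Q.IsPrime] {q : ℕ} (hq : q.Prime)
    (hqQ : (q : 𝓞 K) ∈ Q) : Q.LiesOver (Ideal.span {(q : ℤ)}) := by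
  constructor
  have hmax : (Ideal.span {(q : ℤ)}).IsMaximal :=
    PrincipalIdealRing.isMaximal_of_irreducible (Nat.prime_iff_prime_int.mp hq).irreducible
  apply hmax.eq_of_le
  · intro h
    have h1 : (1 : ℤ) ∈ Ideal.under ℤ Q := h ▸ Submodule.mem_top
    rw [Ideal.under_def, Ideal.mem_comap, map_one] at h1
    exact (Ideal.IsPrime.ne_top inferInstance) ((Ideal.eq_top_iff_one Q).mpr h1)
  · rw [Ideal.span_singleton_le_iff_mem, Ideal.under_def, Ideal.mem_comap]
    simpa using hqQ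

/-- A prime of the `p`-th cyclotomic field above `q ≡ 1 mod p` has norm `q`. -/
theorem absNorm_eq_of_mod_eq_one (Q : Ideal (𝓞 K)) [Q.IsPrime] (hQ : Q ≠ ⊥) {q : ℕ}
    (hq : q.Prime) (hqQ : (q : 𝓞 K) ∈ Q) (hq1 : q % p = 1) : Ideal.absNorm Q = q := by
  have hp : p.Prime := Fact.out
  haveI : Fact q.Prime := ⟨hq⟩
  haveI := liesOver_of_natCast_mem Q hq hqQ
  haveI hQmax : Q.IsMaximal := Ideal.IsPrime.isMaximal inferInstance hQ
  haveI hmax : (Ideal.span {(q : ℤ)}).IsMaximal :=
    PrincipalIdealRing.isMaximal_of_irreducible (Nat.prime_iff_prime_int.mp hq).irreducible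
  have hqp : ¬ q ∣ p := by
    intro h
    have := (Nat.prime_dvd_prime_iff_eq hq hp).mp h
    subst this
    rw [Nat.mod_self] at hq1
    exact absurd hq1 (by norm_num)
  rw [Ideal.absNorm_eq_pow_inertiaDeg' Q hq, Ideal.inertiaDeg'_eq_inertiaDeg,
    IsCyclotomicExtension.Rat.inertiaDeg_eq_of_not_dvd q K Q hqp]
  have h1 : ((q : ℕ) : ZMod p) = 1 := by
    rw [← ZMod.natCast_mod, hq1, Nat.cast_one]
  rw [h1, orderOf_one, pow_one]


attribute [local instance] Ideal.Quotient.field in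
/-- The Jacobi sum attached to a degree-one prime `Q` above `q ≡ 1 mod p`: its Galois conjugate
by `ζ ↦ ζ ^ t` lies in `Q` exactly when `2 * t < p`, and it times its complex conjugate is `q`. -/
theorem exists_jacobi (hp2 : p ≠ 2) (Q : Ideal (𝓞 K)) [Q.IsPrime] (hQ : Q ≠ ⊥) {q : ℕ}
    (hq : q.Prime) (hqQ : (q : 𝓞 K) ∈ Q) (hq1 : q % p = 1) :
    ∃ J : 𝓞 K, (∀ t : (ZMod p)ˣ, clRingAction p K t J ∈ Q ↔ 2 * (t : ZMod p).val < p) ∧
      J * clRingAction p K (-1) J = (q : 𝓞 K) := by
  have hp : p.Prime := Fact.out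
  have hp3 : 2 < p := lt_of_le_of_ne hp.two_le (Ne.symm hp2)
  haveI hQmax : Q.IsMaximal := Ideal.IsPrime.isMaximal inferInstance hQ
  haveI : Finite (𝓞 K ⧸ Q) := Ideal.finiteQuotientOfFreeOfNeBot Q hQ
  letI : Fintype (𝓞 K ⧸ Q) := Fintype.ofFinite _
  have hnorm : Ideal.absNorm Q = q := absNorm_eq_of_mod_eq_one Q hQ hq hqQ hq1
  have hcard : Fintype.card (𝓞 K ⧸ Q) = q := by
    rw [← Nat.card_eq_fintype_card, ← hnorm, Ideal.absNorm_apply, Submodule.cardQuot_apply]
  have hM : Fintype.card (𝓞 K ⧸ Q) = (q / p) * p + 1 := by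
    rw [hcard]
    have := Nat.div_add_mod q p
    rw [hq1] at this
    rw [mul_comm]
    exact this.symm
  have hζ := (IsCyclotomicExtension.zeta_spec p ℚ K).toInteger_isPrimitiveRoot
  have hqp : q ≠ p := by
    rintro rfl
    rw [Nat.mod_self] at hq1
    exact absurd hq1 (by norm_num)
  have hφζ : IsPrimitiveRoot (Ideal.Quotient.mk Q (IsCyclotomicExtension.zeta_spec p ℚ K).toInteger) p := by
    apply hζ.idealQuotient_mk
    · rw [hnorm]
      exact hq.one_lt.ne'
    · rw [hnorm]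
      exact (Nat.coprime_primes hq hp).mpr hqp
  set χ := resChar (Ideal.Quotient.mk Q) hζ hφζ hM with hχ
  have hs : ∀ t : (ZMod p)ˣ, ∀ y : 𝓞 K, y ^ p = 1 →
      ((clRingAction p K t : 𝓞 K ≃+* 𝓞 K) : 𝓞 K →+* 𝓞 K) y = y ^ (t : ZMod p).val :=
    fun t y hy => clRingAction_of_pow_eq_one p K t y hy
  refine ⟨jacobiSum χ χ, fun t => ?_, ?_⟩
  · have hn0 : (t : ZMod p).val ≠ 0 := (ZMod.val_pos.mpr (Units.ne_zero t)).ne'
    have hnlt : (t : ZMod p).val < p := ZMod.val_lt _
    constructor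
    · intro hmem
      by_contra hlt
      rw [not_lt] at hlt
      have hne := map_map_jacobiSum_ne_zero (Ideal.Quotient.mk Q) hζ hφζ hM
        (by rw [hcard]; exact hq) (hs t) hlt hnlt
      apply hne
      rw [Ideal.Quotient.eq_zero_iff_mem]
      exact hmem
    · intro hlt
      have h0 := map_map_jacobiSum_eq_zero (Ideal.Quotient.mk Q) hζ hφζ hM hn0 (hs t) hlt
      rw [Ideal.Quotient.eq_zero_iff_mem] at h0
      exact h0
  · have hs1 : ∀ y : 𝓞 K, y ^ p = 1 →
        ((clRingAction p K (-1) : 𝓞 K ≃+* 𝓞 K) : 𝓞 K →+* 𝓞 K) y = y ^ (p - 1) := by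
      intro y hy
      have := hs (-1) y hy
      rw [this]
      congr 1
      rw [Units.val_neg, Units.val_one]
      exact zmod_val_neg_one p hp.pos
    have h1 := jacobiSum_inv_eq_map (Ideal.Quotient.mk Q) hζ hφζ hM (by omega) hs1
    have hchar : ringChar K ≠ ringChar (𝓞 K ⧸ Q) := by
      rw [ringChar.eq_zero]
      exact (CharP.ringChar_ne_zero_of_finite _).symm
    have h2 := jacobiSum_mul_jacobiSum_inv_eq (Ideal.Quotient.mk Q) hζ hφζ hM
      (algebraMap (𝓞 K) K) (FaithfulSMul.algebraMap_injective (𝓞 K) K) hchar hp3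
    rw [h1, hcard] at h2
    exact h2


/-- Multiplication by `u ≠ 1` does not preserve the half system `{r : 2 * r < p}`. -/
theorem eq_one_of_half_stable (hp3 : 2 < p) (u : (ZMod p)ˣ)
    (h : ∀ r : (ZMod p)ˣ, 2 * (r : ZMod p).val < p → 2 * ((u * r : (ZMod p)ˣ) : ZMod p).val < p) :
    u = 1 := by
  have hp : p.Prime := Fact.out
  set a := (u : ZMod p).val with ha
  have ha0 : 0 < a := ZMod.val_pos.mpr (Units.ne_zero u)
  have hone : ((1 : (ZMod p)ˣ) : ZMod p).val = 1 := by
    rw [Units.val_one]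
    exact ZMod.val_one'' (by omega)
  have h1 : 2 * a < p := by
    have := h 1 (by rw [hone]; omega)
    rwa [mul_one] at this
  by_cases ha1 : a = 1
  · apply Units.ext
    apply ZMod.val_injective p
    rw [← ha, ha1, hone]
  · exfalso
    have ha2 : 2 ≤ a := by omega
    set t₀ := p / (2 * a) + 1 with ht₀
    have hi : p < 2 * a * t₀ := Nat.lt_mul_div_succ p (by omega)
    have hii : 2 * a * (p / (2 * a)) ≤ p := Nat.mul_div_le p (2 * a)
    have hdiv : p / (2 * a) ≤ p / 4 := Nat.div_le_div_left (by omega) (by norm_num)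
    have hiii : 2 * t₀ < p := by omega
    have hat : a * t₀ < p := by
      have : 2 * (a * t₀) = 2 * a * (p / (2 * a)) + 2 * a := by rw [ht₀]; ring
      omega
    have ht0 : 0 < t₀ := Nat.succ_pos _
    have htp : t₀ < p := by omega
    have hcop : t₀.Coprime p :=
      Nat.Coprime.symm ((Nat.Prime.coprime_iff_not_dvd hp).mpr (Nat.not_dvd_of_pos_of_lt ht0 htp))
    have hr : ((ZMod.unitOfCoprime t₀ hcop : (ZMod p)ˣ) : ZMod p).val = t₀ := by
      rw [ZMod.coe_unitOfCoprime, ZMod.val_natCast, Nat.mod_eq_of_lt htp]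
    have h2 := h (ZMod.unitOfCoprime t₀ hcop) (by rw [hr]; exact hiii)
    rw [Units.val_mul, ZMod.val_mul, hr, ← ha, Nat.mod_eq_of_lt hat] at h2
    have : 2 * a * t₀ = 2 * (a * t₀) := by ring
    omega


/-- The absolute norm is invariant under ring automorphisms. -/
theorem absNorm_map_ringEquiv (e : 𝓞 K ≃+* 𝓞 K) (I : Ideal (𝓞 K)) :
    Ideal.absNorm (I.map (e : 𝓞 K →+* 𝓞 K)) = Ideal.absNorm I := by
  rw [Ideal.absNorm_apply, Ideal.absNorm_apply, Submodule.cardQuot_apply, Submodule.cardQuot_apply]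
  exact (Nat.card_congr (Ideal.quotientEquiv I (I.map (e : 𝓞 K →+* 𝓞 K)) e rfl).toEquiv).symm

theorem card_exponentSet (hp3 : 2 < p) : (exponentSet p).card = (p - 1) / 2 := by
  have hp : p.Prime := Fact.out
  have hodd : p % 2 = 1 := by
    rcases hp.eq_two_or_odd with h | h
    · omega
    · exact h
  have : exponentSet p = Finset.Icc 1 ((p - 1) / 2) := by
    ext c
    rw [mem_exponentSet, Finset.mem_Icc]
    omega
  rw [this, Nat.card_Icc]
  omega

theorem val_expUnit {c : ℕ} (hc : c ∈ exponentSet p) : ((expUnit p c : (ZMod p)ˣ) : ZMod p).val = c := by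
  have hp : p.Prime := Fact.out
  rw [mem_exponentSet] at hc
  have hcop : Nat.Coprime c p :=
    Nat.Coprime.symm ((Nat.Prime.coprime_iff_not_dvd hp).mpr
      (Nat.not_dvd_of_pos_of_lt hc.1 (by omega)))
  rw [expUnit, dif_pos hcop, ZMod.coe_unitOfCoprime, ZMod.val_natCast, Nat.mod_eq_of_lt (by omega)]

theorem mem_map_clRingAction_inv (Q : Ideal (𝓞 K)) (t : (ZMod p)ˣ) (x : 𝓞 K) :
    x ∈ Q.map ((clRingAction p K t⁻¹ : 𝓞 K ≃+* 𝓞 K) : 𝓞 K →+* 𝓞 K) ↔ clRingAction p K t x ∈ Q := by
  have h : (clRingAction p K t⁻¹ : 𝓞 K ≃+* 𝓞 K) = (clRingAction p K t : 𝓞 K ≃+* 𝓞 K).symm := by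
    rw [map_inv]
    rfl
  rw [h]
  have := Ideal.map_symm (I := Q) (clRingAction p K t : 𝓞 K ≃+* 𝓞 K)
  rw [show Ideal.map ((clRingAction p K t : 𝓞 K ≃+* 𝓞 K).symm : 𝓞 K →+* 𝓞 K) Q =
    Ideal.comap (clRingAction p K t : 𝓞 K ≃+* 𝓞 K) Q from this]
  rfl

/-- **Stickelberger at a degree-one prime**: the ideal `∏_{0 < c < p/2} σ_c⁻¹(Q)` is principal. -/
theorem exists_span_eq_prod (hp2 : p ≠ 2) (Q : Ideal (𝓞 K)) [Q.IsPrime] (hQ : Q ≠ ⊥) (q : ℕ)
    (hq : q.Prime) (hqQ : (q : 𝓞 K) ∈ Q) (hq1 : q % p = 1) :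
    ∃ J : 𝓞 K, Ideal.span {J} =
      ∏ c ∈ exponentSet p,
        Q.map ((clRingAction p K (expUnit p c)⁻¹ : 𝓞 K ≃+* 𝓞 K) : 𝓞 K →+* 𝓞 K) := by
  have hp : p.Prime := Fact.out
  have hp3 : 2 < p := lt_of_le_of_ne hp.two_le (Ne.symm hp2)
  obtain ⟨J, hJ, hJJ⟩ := exists_jacobi hp2 Q hQ hq hqQ hq1
  have hnorm : Ideal.absNorm Q = q := absNorm_eq_of_mod_eq_one Q hQ hq hqQ hq1
  refine ⟨J, ?_⟩
  set f : ℕ → Ideal (𝓞 K) := fun c =>
    Q.map ((clRingAction p K (expUnit p c)⁻¹ : 𝓞 K ≃+* 𝓞 K) : 𝓞 K →+* 𝓞 K) with hf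
  have hmem : ∀ c ∈ exponentSet p, J ∈ f c := by
    intro c hc
    rw [hf]
    simp only
    rw [mem_map_clRingAction_inv, hJ, val_expUnit hc]
    exact (mem_exponentSet.mp hc).2
  have hprime : ∀ c ∈ exponentSet p, Prime (f c) := by
    intro c _
    apply Ideal.prime_of_isPrime
    · rw [hf]
      simp only
      intro h
      exact hQ ((Ideal.map_eq_bot_iff_of_injective
        (f := ((clRingAction p K (expUnit p c)⁻¹ : 𝓞 K ≃+* 𝓞 K) : 𝓞 K →+* 𝓞 K))
        (RingEquiv.injective _)).mp h)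
    · exact Ideal.map_isPrime_of_equiv _
  have hinj : ∀ c ∈ exponentSet p, ∀ c' ∈ exponentSet p, c ≠ c' → f c ≠ f c' := by
    intro c hc c' hc' hne heq
    apply hne
    have key : expUnit p c' * (expUnit p c)⁻¹ = 1 := by
      apply eq_one_of_half_stable hp3
      intro r hr
      -- x := s(t⁻¹ r) J
      have h1 : clRingAction p K (expUnit p c) (clRingAction p K ((expUnit p c)⁻¹ * r) J) ∈ Q := by
        rw [← RingEquiv.trans_apply]
        have : ((clRingAction p K ((expUnit p c)⁻¹ * r)).trans (clRingAction p K (expUnit p c)))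
            = clRingAction p K r := by
          have := map_mul (clRingAction p K) (expUnit p c) ((expUnit p c)⁻¹ * r)
          rw [mul_inv_cancel_left] at this
          rw [this]
          rfl
        rw [this, hJ]
        exact hr
      rw [← mem_map_clRingAction_inv] at h1
      have h2 : clRingAction p K ((expUnit p c)⁻¹ * r) J ∈ f c' := heq ▸ h1
      rw [hf] at h2
      simp only at h2
      rw [mem_map_clRingAction_inv] at h2
      rw [← RingEquiv.trans_apply] at h2
      have : ((clRingAction p K ((expUnit p c)⁻¹ * r)).trans (clRingAction p K (expUnit p c')))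
          = clRingAction p K (expUnit p c' * (expUnit p c)⁻¹ * r) := by
        have := map_mul (clRingAction p K) (expUnit p c') ((expUnit p c)⁻¹ * r)
        rw [← mul_assoc] at this
        rw [this]
        rfl
      rw [this, hJ] at h2
      exact h2
    have h3 : expUnit p c' = expUnit p c := by
      rw [mul_inv_eq_one] at key
      exact key
    have := val_expUnit hc'
    rw [h3, val_expUnit hc] at this
    exact this
  have hle : Ideal.span {J} ≤ ∏ c ∈ exponentSet p, f c := by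
    have := IsDedekindDomain.inf_pow_eq_prod_of_prime (exponentSet p) f (fun _ => 1) hprime hinj
    simp only [pow_one] at this
    rw [← this]
    apply Finset.le_inf
    intro c hc
    rw [Ideal.span_singleton_le_iff_mem]
    exact hmem c hc
  obtain ⟨B, hB⟩ := Ideal.dvd_iff_le.mpr hle
  -- norms
  have hnormJ : Ideal.absNorm (Ideal.span {J}) * Ideal.absNorm (Ideal.span {J}) = q ^ (p - 1) := by
    have h1 : Ideal.span {J} * (Ideal.span {J}).map
        ((clRingAction p K (-1) : 𝓞 K ≃+* 𝓞 K) : 𝓞 K →+* 𝓞 K) = Ideal.span {(q : 𝓞 K)} := by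
      rw [Ideal.map_span, Set.image_singleton, Ideal.span_singleton_mul_span_singleton]
      congr 2
    have h2 := congrArg Ideal.absNorm h1
    rw [map_mul, absNorm_map_ringEquiv, Ideal.absNorm_span_natCast,
      NumberField.RingOfIntegers.rank,
      IsCyclotomicExtension.finrank K (Polynomial.cyclotomic.irreducible_rat hp.pos),
      Nat.totient_prime hp] at h2
    exact h2
  have hnormP : Ideal.absNorm (∏ c ∈ exponentSet p, f c) = q ^ ((p - 1) / 2) := by
    rw [map_prod]
    rw [Finset.prod_congr rfl (fun c _ => by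
      rw [hf]
      simp only
      rw [absNorm_map_ringEquiv, hnorm] : ∀ c ∈ exponentSet p, Ideal.absNorm (f c) = q)]
    rw [Finset.prod_const, card_exponentSet hp3]
  have hodd : p % 2 = 1 := by
    rcases hp.eq_two_or_odd with h | h
    · omega
    · exact h
  have hJn : Ideal.absNorm (Ideal.span {J}) = q ^ ((p - 1) / 2) := by
    have h2 : q ^ (p - 1) = q ^ ((p - 1) / 2) * q ^ ((p - 1) / 2) := by
      rw [← pow_add]
      congr 1
      omega
    rw [h2, ← sq, ← sq] at hnormJ
    exact Nat.pow_left_injective (by norm_num : (2 : ℕ) ≠ 0) hnormJ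
  have hBn : Ideal.absNorm B = 1 := by
    have h3 := congrArg Ideal.absNorm hB
    rw [map_mul, hJn, hnormP] at h3
    have hpos : 0 < q ^ ((p - 1) / 2) := pow_pos hq.pos _
    exact (Nat.eq_of_mul_eq_mul_left hpos (by rw [mul_one]; exact h3)).symm
  rw [Ideal.absNorm_eq_one_iff] at hBn
  rw [hB, hBn, Ideal.mul_top]

end Fermat.Agent.Lib.StickOmega
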